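import Fermat.Agent.Lib.WCheb.Defs
import Fermat.Prelude.Def_EllipticCurve_FrobeniusTrace

/-!
# Weak Chebotarev: SKELETON (statements only)
-/

set_option autoImplicit false

namespace Fermat.Agent.Lib.WCheb

open NumberField Ideal Filter Topology
open scoped Pointwise

/-! ## A : analytic part -/

/-- A0 : file `C1Bound.lean` -/
theorem c1_le (K : Type*) [Field K] [NumberField K] (p : ℕ) (hp : p.Prime) :
    c1 K p ≤ Module.finrank ℚ K := by sorry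

/-- A1 : file `IdealPrimeSum.lean` : prime ideal sum -/
theorem idealPrimeSum_asymp (K : Type*) [Field K] [NumberField K] :
    BddNear (fun s => (∑' q : {q : Ideal (𝓞 K) // q.IsPrime ∧ (absNorm q).Prime},
      ((absNorm q.1 : ℕ) : ℝ) ^ (-s)) - lam s) := by sorry

/-- A2 : file `PrimeSum.lean` -/
theorem c1_sum_asymp (K : Type*) [Field K] [NumberField K] :
    BddNear (fun s => pSum (fun p => (c1 K p : ℝ)) s - lam s) := by sorry

/-! ## C : combinatorial induction, file `Comb.lean` -/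

theorem comb (n : ℕ) (hn : 0 < n) (o u : Nat.Primes → ℕ) (U : ℕ) (hu : ∀ p, u p ≤ U)
    (h : ∀ m, m ∣ n →
      BddNear (fun s => pSum (fun p => if o p ∣ m then (u p : ℝ) else 0) s - m * lam s))
    (S : Finset Nat.Primes) : ∃ p, p ∉ S ∧ o p = n ∧ 0 < u p := by sorry

/-! ## B : algebraic part -/

section alg

variable (L : Type*) [Field L] [NumberField L] [IsGalois ℚ L]

/-- B1 : file `Stab.lean` -/
theorem stabilizer_eq_zpowers (P : Ideal (𝓞 L)) [P.IsPrime] (hP0 : P ≠ ⊥)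
    [Algebra.IsUnramifiedAt ℤ P] (φ : Gal(L/ℚ)) (hφ : IsArithFrobAt ℤ φ P) :
    MulAction.stabilizer Gal(L/ℚ) P = Subgroup.zpowers φ := by sorry

/-- B2 : file `Deg1.lean` -/
theorem absNorm_under_eq_iff (H : Subgroup Gal(L/ℚ)) (p : ℕ) (hp : p.Prime)
    (P : Ideal (𝓞 L)) [P.IsPrime] (hpP : (p : 𝓞 L) ∈ P)
    [Algebra.IsUnramifiedAt ℤ P] (φ : Gal(L/ℚ)) (hφ : IsArithFrobAt ℤ φ P) :
    absNorm (P.under (𝓞 (IntermediateField.fixedField H))) = p ↔ φ ∈ H := by sorry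

/-- B3 : file `Count.lean` -/
theorem count (H : Subgroup Gal(L/ℚ)) (p : ℕ) (hp : p.Prime) (hd : ¬ (p : ℤ) ∣ discr L)
    (P : Ideal (𝓞 L)) [P.IsPrime] (hpP : (p : 𝓞 L) ∈ P)
    (φ : Gal(L/ℚ)) (hφ : IsArithFrobAt ℤ φ P) :
    c1 (IntermediateField.fixedField H) p * Nat.card H =
      Nat.card {x : Gal(L/ℚ) // x⁻¹ * φ * x ∈ H} := by sorry

/-- M : file `Main.lean` : number field version of the weak Chebotarev theorem -/
theorem exists_frob_generator (σ : Gal(L/ℚ)) (S : Finset ℕ) :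
    ∃ (p : ℕ) (P : Ideal (𝓞 L)) (φ : Gal(L/ℚ)), p.Prime ∧ p ∉ S ∧ ¬ (p : ℤ) ∣ discr L ∧
      P.IsPrime ∧ (p : 𝓞 L) ∈ P ∧ IsArithFrobAt ℤ φ P ∧
      Subgroup.zpowers φ = Subgroup.zpowers σ := by sorry

end alg

/-! ## D : absolute version, file `Absolute.lean` -/

theorem weak_chebotarev
    (U : Subgroup (AlgebraicClosure ℚ ≃ₐ[ℚ] AlgebraicClosure ℚ))
    (hU : IsOpen (U : Set (AlgebraicClosure ℚ ≃ₐ[ℚ] AlgebraicClosure ℚ)))
    (g : AlgebraicClosure ℚ ≃ₐ[ℚ] AlgebraicClosure ℚ) (S : Finset ℕ) :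
    ∃ (ℓ : ℕ) (A : ValuationSubring (AlgebraicClosure ℚ))
      (φ : AlgebraicClosure ℚ ≃ₐ[ℚ] AlgebraicClosure ℚ),
      ℓ.Prime ∧ ℓ ∉ S ∧ A.LiesOverPrime ℓ ∧ A.IsFrobeniusAt φ ℓ ∧
      ∃ u v : ℕ, φ⁻¹ * g ^ u ∈ U ∧ g⁻¹ * φ ^ v ∈ U := by sorry

end Fermat.Agent.Lib.WCheb
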